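import Fermat.Agent.Lifting.Patching.Erase
import Fermat.Agent.Lifting.Patching.Level

/-!
# The systems of the raising step

Levels `M_0, …, M_m` (at step `k` the prime `t k` is added), the cokernels `C_k` of the two
degeneracy maps `M_k → M_{k+1}` and a point with values in `O`. A system over a coefficient ring
consists of the actions of `P` and the matrices of the maps; `IsRaiseLevel` lists the conditions
satisfied at every finite level.
-/

set_option autoImplicit false
set_option linter.unusedSectionVars false

noncomputable section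

open IsLocalRing Fermat.Agent.RT.Patch Fermat.Agent.RT.LocalRing Fermat.Agent.Lifting.Algebra

namespace Fermat.Agent.Lifting.Patching

/-- The nodes. -/
inductive Node (m : ℕ) : Type
  | lev (k : Fin (m + 1))
  | coker (k : Fin m)
  | point
  deriving DecidableEq

/-- The maps of one step. -/
inductive StepEdge : Type
  | up (j : Fin 2)
  | down (i : Fin 2)
  | quot
  | sec
  | split (j : Fin 2)
  | witness (j : Fin 2)
  deriving DecidableEq

instance (m : ℕ) : Finite (Node m) :=
  Finite.of_injective (β := Fin (m + 1) ⊕ (Fin m ⊕ Unit))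
    (fun | .lev k => .inl k | .coker k => .inr (.inl k) | .point => .inr (.inr ()))
    (fun a b h => by cases a <;> cases b <;> simp_all)

instance : Finite StepEdge :=
  Finite.of_injective (β := Fin 4 × Fin 2 ⊕ Bool)
    (fun | .up j => .inl (0, j) | .down i => .inl (1, i) | .split j => .inl (2, j)
         | .witness j => .inl (3, j) | .quot => .inr true | .sec => .inr false)
    (fun a b h => by cases a <;> cases b <;> simp_all)

/-- The source of a map. -/
def stepSrc {m : ℕ} : Fin m × StepEdge → Node m
  | (k, .up _) => .lev k.castSucc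
  | (k, .down _) => .lev k.succ
  | (k, .quot) => .lev k.succ
  | (k, .sec) => .coker k
  | (k, .split _) => .lev k.succ
  | (k, .witness _) => .lev k.castSucc

/-- The target of a map. -/
def stepTgt {m : ℕ} : Fin m × StepEdge → Node m
  | (k, .up _) => .lev k.succ
  | (k, .down _) => .lev k.castSucc
  | (k, .quot) => .coker k
  | (k, .sec) => .lev k.succ
  | (k, .split _) => .lev k.castSucc
  | (k, .witness _) => .lev k.succ

/-- The ranks at the nodes. -/
def nodeDim {m : ℕ} (DM : Fin (m + 1) → ℕ) (DC : Fin m → ℕ) : Node m → ℕ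
  | .lev k => DM k
  | .coker k => DC k
  | .point => 1

/-- The fixed data of the raising step. -/
structure RaiseData (O : Type) [CommRing O] (J : Type) (g m : ℕ) where
  /-- the sites -/
  S : J → Site O
  /-- the prime added at a step -/
  t : Fin m → J
  /-- ranks of the levels -/
  DM : Fin (m + 1) → ℕ
  /-- ranks of the cokernels -/
  DC : Fin m → ℕ
  /-- the matrix of the composite of the degeneracy maps -/
  C : Fin m → Matrix (Fin 2) (Fin 2) (PSR J (Fin g) O)
  /-- the index of the operators at the top -/
  L : Type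
  /-- the operators on the top level at the augmentation -/
  T₀ : L → Matrix (Fin (DM (Fin.last m))) (Fin (DM (Fin.last m))) O
  /-- their values at the point -/
  a : L → O

/-- The number of variables of the coefficient ring. -/
abbrev numVars (J : Type) (g : ℕ) : ℕ := 3 * Nat.card J + g

namespace RaiseData

variable {O : Type} [CommRing O] [IsLocalRing O] {J : Type} {g m : ℕ}
  (Z : RaiseData O J g m)

/-- The component at the `k`-th level: unramified at the primes not yet added. -/
def comp (k : ℕ) (j : J) : Ty :=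
  open scoped Classical in if ∃ i : Fin m, k ≤ i ∧ Z.t i = j then .unram else .same

/-- The components allowed on the cokernel of the `k`-th step. -/
def cokerTypes [Finite J] (k : Fin m) : Finset (J → Ty) :=
  (Set.toFinite {c : J → Ty | (∀ j, (Z.S j).Allowed (c j)) ∧ c (Z.t k) ≠ .unram}).toFinset

theorem mem_cokerTypes [Finite J] {k : Fin m} {c : J → Ty} :
    c ∈ Z.cokerTypes k ↔ (∀ j, (Z.S j).Allowed (c j)) ∧ c (Z.t k) ≠ .unram := by
  simp [cokerTypes]

/-- `tr Φ - s (q + 1)` at the prime added at the `k`-th step. -/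
def traceRel (k : Fin m) : PSR J (Fin g) O :=
  ((universalFamily Z.S (Fin g)).1 (Z.t k)).1.trace -
    algebraMap O (PSR J (Fin g) O) ((Z.S (Z.t k)).sgn * (((Z.S (Z.t k)).q : O) + 1))

/-- Systems over `T`. -/
abbrev Sys (T : Type) [CommRing T] : Type :=
  Data (PSR J (Fin g) O) (nodeDim Z.DM Z.DC) (stepSrc (m := m)) stepTgt T

variable {Z} {T T' : Type} [CommRing T] [CommRing T'] (X : Z.Sys T)

/-- The action on a level. -/
def lev (k : Fin (m + 1)) : PSR J (Fin g) O →+* Matrix (Fin (Z.DM k)) (Fin (Z.DM k)) T :=
  X.act (.lev k)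

/-- The action on a cokernel. -/
def cok (k : Fin m) : PSR J (Fin g) O →+* Matrix (Fin (Z.DC k)) (Fin (Z.DC k)) T :=
  X.act (.coker k)

/-- The point. -/
def pt : PSR J (Fin g) O →+* Matrix (Fin 1) (Fin 1) T := X.act .point

/-- Degeneracy maps up. -/
def up (k : Fin m) (j : Fin 2) : Matrix (Fin (Z.DM k.succ)) (Fin (Z.DM k.castSucc)) T :=
  X.edge (k, .up j)

/-- Degeneracy maps down. -/
def down (k : Fin m) (i : Fin 2) : Matrix (Fin (Z.DM k.castSucc)) (Fin (Z.DM k.succ)) T :=
  X.edge (k, .down i)

/-- The projection onto the cokernel. -/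
def quot (k : Fin m) : Matrix (Fin (Z.DC k)) (Fin (Z.DM k.succ)) T := X.edge (k, .quot)

/-- A section of the projection. -/
def sec (k : Fin m) : Matrix (Fin (Z.DM k.succ)) (Fin (Z.DC k)) T := X.edge (k, .sec)

/-- A splitting of the degeneracy maps up. -/
def split (k : Fin m) (j : Fin 2) : Matrix (Fin (Z.DM k.castSucc)) (Fin (Z.DM k.succ)) T :=
  X.edge (k, .split j)

/-- A partial inverse of the degeneracy maps down. -/
def witness (k : Fin m) (j : Fin 2) : Matrix (Fin (Z.DM k.succ)) (Fin (Z.DM k.castSucc)) T :=
  X.edge (k, .witness j)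

variable (f : T →+* T')

theorem lev_map (k : Fin (m + 1)) (x : PSR J (Fin g) O) :
    lev (X.map f) k x = (lev X k x).map f := rfl

theorem cok_map (k : Fin m) (x : PSR J (Fin g) O) : cok (X.map f) k x = (cok X k x).map f := rfl

theorem pt_map (x : PSR J (Fin g) O) : pt (X.map f) x = (pt X x).map f := rfl

theorem up_map (k : Fin m) (j : Fin 2) : up (X.map f) k j = (up X k j).map f := rfl

theorem down_map (k : Fin m) (j : Fin 2) : down (X.map f) k j = (down X k j).map f := rfl

theorem quot_map (k : Fin m) : quot (X.map f) k = (quot X k).map f := rfl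

theorem sec_map (k : Fin m) : sec (X.map f) k = (sec X k).map f := rfl

theorem split_map (k : Fin m) (j : Fin 2) : split (X.map f) k j = (split X k j).map f := rfl

theorem witness_map (k : Fin m) (j : Fin 2) :
    witness (X.map f) k j = (witness X k j).map f := rfl

/-- The identities between the maps. -/
structure Eqns : Prop where
  up_comm : ∀ k j x, up X k j * lev X k.castSucc x = lev X k.succ x * up X k j
  down_comm : ∀ k i x, down X k i * lev X k.succ x = lev X k.castSucc x * down X k i
  quot_comm : ∀ k x, quot X k * lev X k.succ x = cok X k x * quot X k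
  split_eq : ∀ k, ∑ j, up X k j * split X k j + sec X k * quot X k = 1
  sec_eq : ∀ k, quot X k * sec X k = 1
  comp_eq : ∀ k i j, down X k i * up X k j = lev X k.castSucc (Z.C k i j)

theorem Eqns.map {X : Z.Sys T} (h : Eqns X) : Eqns (X.map f) where
  up_comm k j x := by rw [up_map, lev_map, lev_map]; exact commute_map f (h.up_comm k j x)
  down_comm k i x := by rw [down_map, lev_map, lev_map]; exact commute_map f (h.down_comm k i x)
  quot_comm k x := by rw [quot_map, lev_map, cok_map]; exact commute_map f (h.quot_comm k x)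
  split_eq k := by
    have h1 := congrArg f.mapMatrix (h.split_eq k)
    simp only [map_add, map_one, RingHom.mapMatrix_apply, Fin.sum_univ_two,
      Matrix.map_mul] at h1
    simpa only [up_map, split_map, sec_map, quot_map, Fin.sum_univ_two] using h1
  sec_eq k := by
    rw [quot_map, sec_map, ← Matrix.map_mul, h.sec_eq, Matrix.map_one _ (map_zero _) (map_one _)]
  comp_eq k i j := by rw [down_map, up_map, ← Matrix.map_mul, h.comp_eq, lev_map]

/-- `down ∘ witness` is `e`. -/
def HasWitness (k : Fin m) (e : PSR J (Fin g) O) : Prop :=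
  ∀ i j, down X k i * witness X k j = if i = j then lev X k.castSucc e else 0

theorem HasWitness.map {X : Z.Sys T} {k : Fin m} {e : PSR J (Fin g) O} (h : HasWitness X k e) :
    HasWitness (X.map f) k e := fun i j => by
  rw [down_map, witness_map, ← Matrix.map_mul, h i j, lev_map]
  split_ifs
  · rfl
  · exact Matrix.map_zero _ (map_zero _)

variable [IsNoetherianRing O] [IsAdicComplete (maximalIdeal O) O] [Finite J]

/-- `e` is `1`, or solves for the free variable `o`, modulo `𝔪ⁿ`. -/
def Solves (o : Option (Fin g)) (n : ℕ) (e : PSR J (Fin g) O) : Prop :=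
  match o with
  | none => e - 1 ∈ maximalIdeal (PSR J (Fin g) O) ^ n
  | some s => eraseVar s (e - MvPowerSeries.X (Sum.inr s)) - (e - MvPowerSeries.X (Sum.inr s)) ∈
      maximalIdeal (PSR J (Fin g) O) ^ n

local notation "𝕊" => MvPowerSeries (Fin (numVars J g)) O

/-- The conditions at a finite level. -/
structure IsRaiseLevel (n : ℕ) (X : Z.Sys (Lvl 𝕊 n)) : Prop extends Eqns X where
  scalar : ∀ v c, X.act v (algebraMap O _ c) =
    Matrix.scalar _ (Ideal.Quotient.mk _ (MvPowerSeries.C c))
  lift_lev : ∀ k i, ∃ f, lev X k f =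
    Matrix.scalar _ (Ideal.Quotient.mk _ (MvPowerSeries.X i)) ∧ pt X f = 0
  lift_cok : ∀ k i, ∃ f, cok X k f =
    Matrix.scalar _ (Ideal.Quotient.mk _ (MvPowerSeries.X i)) ∧ pt X f = 0
  kill_base : ∀ f ∈ kernel Z.S (Fin g) (Z.comp 0), lev X 0 f = 0
  kill_cok : ∀ k, ∀ f ∈ ∏ c ∈ Z.cokerTypes k, kernel Z.S (Fin g) c, cok X k f = 0
  kill_pt : ∀ f ∈ kernel Z.S (Fin g) (Z.comp m), pt X f = 0
  transfer : ∀ k, ∃ e, (∃ o, Solves o n e) ∧ HasWitness X k e
  operator : ∀ l, ∃ f, (lev X (Fin.last m) f).map (augLvl (numVars J g) n) =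
      (Z.T₀ l).map (Ideal.Quotient.mk _) ∧
    pt X f = Matrix.scalar _ (Ideal.Quotient.mk _ (MvPowerSeries.C (Z.a l)))

/-- The hypotheses on the fixed data. -/
structure Valid (Z : RaiseData O J g m) : Prop where
  two : IsUnit (2 : O)
  t_injective : Function.Injective Z.t
  opp_base : ∀ j, (∀ k, Z.t k ≠ j) → ¬ (Z.S j).Allowed .opp
  b₀_mem : ∀ k, (Z.S (Z.t k)).b₀ ∈ maximalIdeal O
  det_mem : ∀ k, (Z.C k).det ∈ Ideal.span {Z.traceRel k}
  DM_pos : 0 < Z.DM 0

end RaiseData

end Fermat.Agent.Lifting.Patching

end
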