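import Fermat.Agent.Lifting.Patching.Raise.Limit
import Fermat.Agent.Lifting.Patching.Step
import Mathlib.RingTheory.MvPowerSeries.Rename

/-!
# The raising step and the descent

If systems exist at all levels, the operators on the top level at the augmentation have a common
eigenvector with the values of the point: by induction on the level the component through the
point is hit, and then the point is a point of the top level at the augmentation.
-/

set_option autoImplicit false
set_option linter.unusedSectionVars false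

noncomputable section

open IsLocalRing Fermat.Agent.RT.Patch Fermat.Agent.RT.LocalRing Fermat.Agent.Lifting.Algebra

namespace Fermat.Agent.Lifting.Patching.RaiseData

variable {O : Type} [CommRing O] [IsDomain O] [IsDiscreteValuationRing O]
  [IsAdicComplete (maximalIdeal O) O] [Finite (ResidueField O)] [CharZero O]
  {J : Type} [Finite J] {g m : ℕ} {Z : RaiseData O J g m}

local notation "𝕊" => MvPowerSeries (Fin (numVars J g)) O
local notation "ℙ" => PSR J (Fin g) O

theorem comp_eq_unram_iff {k : ℕ} {j : J} :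
    Z.comp k j = .unram ↔ ∃ i : Fin m, k ≤ i ∧ Z.t i = j := by
  classical
  unfold comp
  split_ifs with h <;> simp [h]

theorem comp_eq_same_iff {k : ℕ} {j : J} :
    Z.comp k j = .same ↔ ¬ ∃ i : Fin m, k ≤ i ∧ Z.t i = j := by
  classical
  unfold comp
  split_ifs with h <;> simp [h]

theorem comp_allowed (hZ : Z.Valid) (k : ℕ) (j : J) : (Z.S j).Allowed (Z.comp k j) := by
  classical
  unfold comp
  split_ifs with h
  · obtain ⟨i, -, rfl⟩ := h
    exact hZ.b₀_mem i
  · trivial

theorem comp_succ_t (hZ : Z.Valid) (k : Fin m) : Z.comp (k.succ : ℕ) (Z.t k) = .same := by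
  rw [comp_eq_same_iff]
  rintro ⟨i, hi, hik⟩
  have := hZ.t_injective hik
  subst this
  rw [Fin.val_succ] at hi
  omega

theorem comp_castSucc (k : Fin m) (j : J) :
    Z.comp (k.castSucc : ℕ) j = Z.comp (k.succ : ℕ) j ∨
      (j = Z.t k ∧ Z.comp (k.castSucc : ℕ) j = .unram) := by
  classical
  rcases eq_or_ne j (Z.t k) with rfl | hj
  · exact Or.inr ⟨rfl, comp_eq_unram_iff.2 ⟨k, le_rfl, rfl⟩⟩
  refine Or.inl ?_
  unfold comp
  refine if_congr ⟨fun ⟨i, hi, hij⟩ => ⟨i, ?_, hij⟩, fun ⟨i, hi, hij⟩ => ⟨i, ?_, hij⟩⟩ rfl rfl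
  · have hne : (i : ℕ) ≠ k := fun h => hj ((congrArg Z.t (Fin.ext h)).symm.trans hij).symm
    rw [Fin.val_castSucc] at hi
    rw [Fin.val_succ]
    omega
  · rw [Fin.val_succ] at hi
    rw [Fin.val_castSucc]
    omega

/-- The candidates are finite over the coefficient ring. -/
theorem exists_isIntegral_kernel (h2 : IsUnit (2 : O)) {c : J → Ty}
    (hc : ∀ j, (Z.S j).Allowed (c j)) :
    ∃ ψ : 𝕊 →+* ℙ ⧸ kernel Z.S (Fin g) c, ψ.IsIntegral := by
  have hcard : Nat.card ((J × Fin 3) ⊕ Fin g) = numVars J g := by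
    rw [Nat.card_sum, Nat.card_prod, Nat.card_fin, Nat.card_fin]
    ring
  let ev : ((J × Fin 3) ⊕ Fin g) ≃ Fin (numVars J g) := Finite.equivFinOfCardEq hcard
  obtain ⟨ψ, hψ⟩ := exists_finite_kernel (τ := Fin g) Z.S h2 hc
  let e := (MvPowerSeries.renameEquiv O ev.symm : 𝕊 ≃ₐ[O] _)
  refine ⟨((Ideal.Quotient.mk (kernel Z.S (Fin g) c)).comp ψ.toRingHom).comp e.toRingEquiv.toRingHom,
    RingHom.Finite.to_isIntegral (hψ.comp (RingHom.Finite.of_surjective _ ?_))⟩
  exact e.surjective


/-- Lifts of the variables at a node which vanish at the point give a map from the coefficients. -/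
theorem exists_coeffHom {X : Z.Sys 𝕊} (hX : IsLimit X) (v : Node m)
    (h : ∀ i, ∃ f, X.act v f = Matrix.scalar _ (MvPowerSeries.X i) ∧ pt X f = 0) :
    ∃ φ : 𝕊 →ₐ[O] ℙ, (∀ s, X.act v (φ s) = Matrix.scalar _ s) ∧
      ∀ i, pt X (φ (MvPowerSeries.X i)) = 0 := by
  have := mvPowerSeries_isAdicComplete (O := O) (σ := Idx J (Fin g))
  have := mvPowerSeries_isAdicComplete (O := O) (σ := Fin (numVars J g))
  choose y hy hy0 using h
  have hyM : ∀ i, y i ∈ maximalIdeal ℙ := fun i => by
    rw [mem_maximalIdeal, mem_nonunits_iff]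
    intro hu
    have h1 := hu.map (pt X)
    rw [hy0] at h1
    exact not_isUnit_zero h1
  obtain ⟨φ, hφ⟩ := RT.exists_eval (L := O) y hyM
  refine ⟨φ, fun s => eq_of_forall_map fun n => ?_, fun i => by rw [hφ]; exact hy0 i⟩
  have := ringHom_ext_of_finite
    (((Ideal.Quotient.mk (maximalIdeal 𝕊 ^ n)).mapMatrix.comp (X.act v)).comp φ.toRingHom)
    ((Matrix.scalar _).comp (Ideal.Quotient.mk (maximalIdeal 𝕊 ^ n))) (fun a => ?_) (fun i => ?_)
  · exact (RingHom.congr_fun this s).trans (scalar_map _ _).symm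
  · simp only [RingHom.comp_apply, AlgHom.toRingHom_eq_coe, RingHom.coe_coe]
    rw [show φ (MvPowerSeries.C a) = algebraMap O ℙ a from φ.commutes a, hX.scalar]
    exact scalar_map _ _
  · simp only [RingHom.comp_apply, AlgHom.toRingHom_eq_coe, RingHom.coe_coe]
    rw [hφ, hy]
    exact scalar_map _ _

/-- By induction, the component of every level is hit. -/
theorem annihilator_le_kernel {X : Z.Sys 𝕊} (hZ : Z.Valid) (hX : IsLimit X) (k : Fin (m + 1)) :
    Module.annihilator ℙ (Space (lev X k)) ≤ kernel Z.S (Fin g) (Z.comp (k : ℕ)) := by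
  classical
  have := mvPowerSeries_isAdicComplete (O := O) (σ := Idx J (Fin g))
  have hKp : ∀ c : J → Ty, (∀ j, (Z.S j).Allowed (c j)) → (kernel Z.S (Fin g) c).IsPrime :=
    fun c hc => kernel_isPrime Z.S hZ.two hc
  have : IsDomain 𝕊 := NoZeroDivisors.to_isDomain _
  induction k using Fin.induction with
  | zero =>
    obtain ⟨φ, hφ, -⟩ := exists_coeffHom hX (.lev 0) fun i => hX.lift_lev 0 i
    have := Space.nontrivial (lev X 0) hZ.DM_pos
    have hne : Module.annihilator ℙ (Space (lev X 0)) ≠ ⊤ := by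
      rw [ne_eq, Module.annihilator_eq_top_iff, not_subsingleton_iff_nontrivial]
      infer_instance
    obtain ⟨c, hc, hann, -⟩ := exists_hit_le (X := Space (lev X 0)) φ.toRingHom
      (Space.smul_eq (lev X 0) hφ) {Z.comp 0} (fun c => kernel Z.S (Fin g) c)
      (fun c hc => hKp _ fun j => by rw [Finset.mem_singleton.1 hc]; exact comp_allowed hZ 0 j)
      (fun c hc => exists_isIntegral_kernel hZ.two fun j => by
        rw [Finset.mem_singleton.1 hc]; exact comp_allowed hZ 0 j)
      (fun f hf => (Space.mem_annihilator _).2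
        (hX.kill_base f (by simpa using hf)))
      (maximalIdeal.isMaximal ℙ).isPrime (le_maximalIdeal hne)
    rw [Finset.mem_singleton.1 hc] at hann
    exact hann
  | succ k ih =>
    obtain ⟨φM, hφM, -⟩ := exists_coeffHom hX (.lev k.castSucc) fun i => hX.lift_lev _ i
    obtain ⟨φC, hφC, -⟩ := exists_coeffHom hX (.coker k) fun i => hX.lift_cok _ i
    set c := Z.comp (k.succ : ℕ)
    have hc : ∀ j, (Z.S j).Allowed (c j) := fun j => comp_allowed hZ _ j
    have hD : ∀ j ∈ ({Z.t k} : Finset J), c j = .same ∧ (Z.S j).b₀ ∈ maximalIdeal O := by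
      intro j hj
      rw [Finset.mem_singleton.1 hj]
      exact ⟨comp_succ_t hZ k, hZ.b₀_mem k⟩
    have h𝔔 := genericPrime_isPrime (τ := Fin g) hZ.two hc hD
    obtain ⟨e, he, hw⟩ := hX.transfer k
    have he' : e ∉ genericPrime Z.S (Fin g) c {Z.t k} := by
      rcases he with rfl | ⟨s, hs⟩
      · exact (Ideal.ne_top_iff_one _).1 h𝔔.ne_top
      · exact not_mem_genericPrime_of_erase hZ.two hc hD s hs
    refine hit_of_flip_det (φM := φM.toRingHom) (φC := φC.toRingHom) hφM hφC (Z.cokerTypes k)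
      (fun c => kernel Z.S (Fin g) c) (fun c hc => hKp _ ((Z.mem_cokerTypes).1 hc).1)
      (fun c hc => exists_isIntegral_kernel hZ.two ((Z.mem_cokerTypes).1 hc).1)
      (hX.kill_cok k) h𝔔 (fun c' hc' hle => ?_)
      (ih.trans (kernel_le_genericPrime_of_unram hZ.two hc hD fun j => ?_))
      (hX.up_comm k) (hX.down_comm k) (hX.quot_comm k) (hX.split_eq k) (hX.sec_eq k)
      he' hw ?_ (hX.comp_eq k)
    · obtain ⟨ha, hu⟩ := (Z.mem_cokerTypes).1 hc'
      rw [eq_of_kernel_le_genericPrime hZ.two hc hD ha (fun j hj => by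
        rw [Finset.mem_singleton.1 hj]; exact hu) hle]
    · rcases comp_castSucc (Z := Z) k j with h | ⟨h1, h2⟩
      · exact Or.inl h
      · exact Or.inr ⟨Finset.mem_singleton.2 h1, h2⟩
    · refine (Ideal.span_singleton_le_iff_mem _).2 ?_ (hZ.det_mem k)
      exact trace_sub_mem_genericPrime hZ.two hc hD (comp_succ_t hZ k)

/-- The point, as a homomorphism to `O`. -/
def pointHom {X : Z.Sys 𝕊} (hX : IsLimit X) : ℙ →ₐ[O] O where
  toFun f := MvPowerSeries.constantCoeff (pt X f 0 0)
  map_one' := by rw [map_one, Matrix.one_apply_eq, map_one]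
  map_mul' f f' := by rw [map_mul, Matrix.mul_apply, Fin.sum_univ_one, map_mul]
  map_zero' := by rw [map_zero, Matrix.zero_apply, map_zero]
  map_add' f f' := by rw [map_add, Matrix.add_apply, map_add]
  commutes' c := by
    show MvPowerSeries.constantCoeff (X.act .point (algebraMap O ℙ c) _ _) = _
    have h0 : ∀ (i : Fin (nodeDim Z.DM Z.DC .point)),
        Matrix.scalar (Fin (nodeDim Z.DM Z.DC .point)) (MvPowerSeries.C c : 𝕊) i i =
          MvPowerSeries.C c := fun i => Matrix.diagonal_apply_eq _ _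
    rw [hX.scalar]
    exact (congrArg MvPowerSeries.constantCoeff (h0 (0 : Fin 1))).trans
      (MvPowerSeries.constantCoeff_C c)

theorem pointHom_apply {X : Z.Sys 𝕊} (hX : IsLimit X) (f : ℙ) :
    pointHom hX f = MvPowerSeries.constantCoeff (pt X f 0 0) := rfl

theorem exists_eigenvector_of_isLimit {X : Z.Sys 𝕊} (hZ : Z.Valid) (hX : IsLimit X) :
    ∃ w : Fin (Z.DM (Fin.last m)) → O, w ≠ 0 ∧ ∀ l, (Z.T₀ l).mulVec w = Z.a l • w := by
  obtain ⟨φ, hφ, hφ0⟩ := exists_coeffHom hX (.lev (Fin.last m)) fun i => hX.lift_lev _ i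
  set F := pointHom hX
  have hFX : ∀ i, φ (MvPowerSeries.X i) ∈ RingHom.ker F := fun i => by
    rw [RingHom.mem_ker, pointHom_apply, hφ0, Matrix.zero_apply, map_zero]
  have hann : Module.annihilator ℙ (Space (lev X (Fin.last m))) ≤ RingHom.ker F :=
    (annihilator_le_kernel hZ hX (Fin.last m)).trans fun f hf => by
      rw [RingHom.mem_ker, pointHom_apply, hX.kill_pt f hf, Matrix.zero_apply, map_zero]
  let ρ₀ := (MvPowerSeries.constantCoeff (σ := Fin (numVars J g)) (R := O)).mapMatrix.comp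
    (lev X (Fin.last m))
  obtain ⟨w, hw, hwf⟩ := exists_common_eigenvector ρ₀ (fun c => by
      show (X.act (.lev _) (algebraMap O ℙ c)).map MvPowerSeries.constantCoeff = _
      rw [hX.scalar, scalar_map, MvPowerSeries.constantCoeff_C]
      rfl) F fun f hf => by
    exact RingHom.mem_ker.1
      (mem_of_constantCoeff_eq_zero hφ (RingHom.ker_isPrime _) hann hFX hf)
  refine ⟨w, hw, fun l => ?_⟩
  obtain ⟨f, hf, hf0⟩ := hX.operator l
  rw [← hf, show Z.a l = F f by
    rw [pointHom_apply, hf0, Matrix.scalar_apply, Matrix.diagonal_apply_eq,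
      MvPowerSeries.constantCoeff_C]]
  exact hwf f

/-- **The raising step and the descent.** -/
theorem exists_eigenvector (hZ : Z.Valid)
    (hlev : ∀ n, ∃ X : Z.Sys (Lvl 𝕊 n), IsRaiseLevel n X) :
    ∃ w : Fin (Z.DM (Fin.last m)) → O, w ≠ 0 ∧ ∀ l, (Z.T₀ l).mulVec w = Z.a l • w :=
  let ⟨_, hX⟩ := exists_isLimit hlev
  exists_eigenvector_of_isLimit hZ hX

end Fermat.Agent.Lifting.Patching.RaiseData

end
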