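import Fermat.Agent.Lifting.Patching.Level

/-!
# Modules over `O[Δ]` with an action of the ring, and equivariant maps between them

A node is an action of `R` on a free `O[Δ]`-module with the old/new conditions of the diamond
trick. In the bases of the trick an `O`-linear equivariant map becomes a matrix over `O[Δ]`.
-/

set_option autoImplicit false
set_option linter.unusedSectionVars false

noncomputable section

open IsLocalRing Fermat.Agent.RT.Diamond

namespace Fermat.Agent.Lifting.Patching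

variable {O : Type} [CommRing O] {r p : ℕ} [Fact p.Prime] {e : Fin r → ℕ}

local notation "Λ" => Alg O (ppow p e)

/-- A map commuting with the generators is linear over the group algebra. -/
theorem map_smul_of_delta {M N : Type} [AddCommGroup M] [Module O M] [Module Λ M]
    [IsScalarTower O Λ M] [AddCommGroup N] [Module O N] [Module Λ N] [IsScalarTower O Λ N]
    (A : M →ₗ[O] N)
    (h : ∀ i x, A (delta O (N := ppow p e) i • x) = delta O (N := ppow p e) i • A x)
    (c : Λ) (x : M) : A (c • x) = c • A x := by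
  let T : Submonoid Λ :=
    { carrier := {c | ∀ x, A (c • x) = c • A x}
      one_mem' := fun x => by rw [one_smul, one_smul]
      mul_mem' := fun {a b} ha hb x => by rw [mul_smul, ha, hb, mul_smul] }
  have hg : ∀ v, MonoidAlgebra.of O (Grp (ppow p e)) v ∈ T := fun v => by
    rw [eq_prod_gen v, map_prod]
    refine prod_mem fun i _ => ?_
    rw [map_pow]
    exact pow_mem (show delta O (N := ppow p e) i ∈ T from h i) _
  induction c using MonoidAlgebra.induction_on with
  | of v => exact hg v x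
  | add a b ha hb => rw [add_smul, map_add, ha, hb, add_smul]
  | smul t a ha => rw [smul_assoc, map_smul, ha, smul_assoc]

/-- An action with the old and new conditions at the diamond elements `a`. -/
structure DiamondNode (R : Type) [CommRing R] [Algebra O R] (a : Fin r → R)
    (χ : Fin r → (Λ →ₐ[O] O)) (D : ℕ) where
  /-- the action -/
  ρ : R →ₐ[O] Module.End Λ (Fin D → Λ)
  old : ∀ i (v : Fin D → Λ), ∃ w : Fin D → Λ,
    ρ (a i) v - v = (delta O (N := ppow p e) i - 1) • w
  new : ∀ i (v : Fin D → Λ),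
    ρ (a i) v - v ∈ RingHom.ker (χ i) • (⊤ : Submodule Λ (Fin D → Λ)) →
      v ∈ RingHom.ker (χ i) • (⊤ : Submodule Λ (Fin D → Λ))

/-- The action of a node in the basis of the trick. -/
structure NodeBasis {R : Type} [CommRing R] [Algebra O R] {a : Fin r → R}
    {χ : Fin r → (Λ →ₐ[O] O)} {D : ℕ} (N : DiamondNode R a χ D)
    (ρ' : R →ₐ[O] Matrix (Fin D) (Fin D) Λ) (Ψ : (Fin D → Λ) ≃ₗ[O] (Fin D → Λ)) : Prop where
  act : ∀ f v, Ψ ((ρ' f).mulVec v) = N.ρ f (Ψ v)
  single : ∀ j, Ψ (Pi.single j 1) = Pi.single j 1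
  diamond : ∀ i, ρ' (a i) = Matrix.scalar (Fin D) (delta O (N := ppow p e) i)

variable [IsDomain O] [IsDiscreteValuationRing O] [CharZero O]

theorem exists_nodeBasis (hpO : (p : O) ∈ maximalIdeal O) {R : Type} [CommRing R] [Algebra O R]
    {a : Fin r → R} (ha : ∀ i, a i ^ p ^ e i = 1) {χ : Fin r → (Λ →ₐ[O] O)} {ζ : O}
    (hζ : IsPrimitiveRoot ζ p) (hχ : ∀ i, χ i (delta O (N := ppow p e) i) = ζ) {D : ℕ}
    (N : DiamondNode R a χ D) : ∃ ρ' Ψ, NodeBasis N ρ' Ψ := by
  obtain ⟨ρ', Ψ, h1, h2, h3, -, -⟩ := exists_matrix_action_equiv (Pi.basisFun _ (Fin D)) hpO N.ρ a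
    ha hζ χ hχ N.old N.new
  exact ⟨ρ', Ψ, h1, fun j => by rw [h2, Pi.basisFun_apply], h3⟩

namespace NodeBasis

variable {R : Type} [CommRing R] [Algebra O R] {a : Fin r → R}
    {χ : Fin r → ((Alg O (ppow p e)) →ₐ[O] O)} {D D' : ℕ} {N : DiamondNode R a χ D} {N' : DiamondNode R a χ D'}
    {ρ' : R →ₐ[O] Matrix (Fin D) (Fin D) (Alg O (ppow p e))} {Ψ : (Fin D → (Alg O (ppow p e))) ≃ₗ[O] (Fin D → (Alg O (ppow p e)))}
    {ρ'' : R →ₐ[O] Matrix (Fin D') (Fin D') (Alg O (ppow p e))} {Ψ' : (Fin D' → (Alg O (ppow p e))) ≃ₗ[O] (Fin D' → (Alg O (ppow p e)))}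

theorem delta_smul (h : NodeBasis N ρ' Ψ) (i : Fin r) (v : Fin D → Λ) :
    Ψ (delta O (N := ppow p e) i • v) = N.ρ (a i) (Ψ v) := by
  rw [← h.act, h.diamond]
  refine congrArg Ψ (funext fun k => ?_)
  rw [Matrix.scalar_apply, Matrix.mulVec_diagonal, Pi.smul_apply, smul_eq_mul]

theorem act_symm (h : NodeBasis N ρ' Ψ) (f : R) (x : Fin D → Λ) :
    (ρ' f).mulVec (Ψ.symm x) = Ψ.symm (N.ρ f x) :=
  Ψ.injective (by rw [h.act, Ψ.apply_symm_apply, Ψ.apply_symm_apply])

/-- An equivariant map in the bases of the trick is a matrix. -/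
theorem exists_matrix (h : NodeBasis N ρ' Ψ) (h' : NodeBasis N' ρ'' Ψ')
    (A : (Fin D → Λ) →ₗ[O] (Fin D' → Λ)) (hA : ∀ f v, A (N.ρ f v) = N'.ρ f (A v)) :
    ∃ M : Matrix (Fin D') (Fin D) Λ, (∀ v, Ψ' (M.mulVec v) = A (Ψ v)) ∧
      ∀ f, M * ρ' f = ρ'' f * M := by
  let B : (Fin D → Λ) →ₗ[O] (Fin D' → Λ) := Ψ'.symm.toLinearMap ∘ₗ A ∘ₗ Ψ.toLinearMap
  have hB : ∀ i v, B (delta O (N := ppow p e) i • v) = delta O (N := ppow p e) i • B v := by
    intro i v
    apply Ψ'.injective
    rw [h'.delta_smul]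
    show Ψ' (Ψ'.symm (A (Ψ _))) = N'.ρ (a i) (Ψ' (Ψ'.symm (A (Ψ v))))
    rw [Ψ'.apply_symm_apply, Ψ'.apply_symm_apply, h.delta_smul, hA]
  let BΛ : (Fin D → Λ) →ₗ[Λ] (Fin D' → Λ) :=
    { toFun := B
      map_add' := B.map_add
      map_smul' := fun c v => map_smul_of_delta B hB c v }
  have hM : ∀ v, (LinearMap.toMatrix' BΛ).mulVec v = Ψ'.symm (A (Ψ v)) := fun v =>
    LinearMap.congr_fun (Matrix.toLin'_toMatrix' BΛ) v
  refine ⟨LinearMap.toMatrix' BΛ, fun v => by rw [hM, Ψ'.apply_symm_apply], fun f => ?_⟩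
  refine Matrix.ext_of_mulVec_single fun j => ?_
  rw [← Matrix.mulVec_mulVec, ← Matrix.mulVec_mulVec, hM, hM, h.act, hA]
  apply Ψ'.injective
  rw [h'.act, Ψ'.apply_symm_apply, Ψ'.apply_symm_apply]

/-- The change of basis is the identity at the augmentation. -/
theorem aug_apply (h : NodeBasis N ρ' Ψ) (v : Fin D → Λ) (k : Fin D) :
    aug O (ppow p e) (Ψ v k) = aug O (ppow p e) (v k) := by
  classical
  let _ : Module Λ (Fin D → O) := Module.compHom _ (aug O (ppow p e)).toRingHom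
  have : IsScalarTower O Λ (Fin D → O) := IsScalarTower.of_algebraMap_smul fun c x => by
    show (aug O (ppow p e) (algebraMap O _ c)) • x = c • x
    rw [AlgHom.commutes, Algebra.algebraMap_self, RingHom.id_apply]
  let π : (Fin D → Λ) →ₗ[O] (Fin D → O) := (aug O (ppow p e)).toLinearMap.compLeft (Fin D)
  have hπ : ∀ (c : Λ) (x : Fin D → Λ), π (c • x) = c • π x := fun c x => funext fun l => by
    show aug O (ppow p e) (c * x l) = aug O (ppow p e) c * aug O (ppow p e) (x l)
    rw [map_mul]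
  have hd : ∀ i, aug O (ppow p e) (delta O (N := ppow p e) i) = 1 := fun i => by
    simp [aug, delta, MonoidAlgebra.lift_single]
  let B : (Fin D → Λ) →ₗ[O] (Fin D → O) := π ∘ₗ Ψ.toLinearMap
  have hB : ∀ i x, B (delta O (N := ppow p e) i • x) = delta O (N := ppow p e) i • B x := by
    intro i x
    show π (Ψ _) = (aug O (ppow p e) (delta O (N := ppow p e) i)) • π (Ψ x)
    obtain ⟨w, hw⟩ := N.old i (Ψ x)
    rw [h.delta_smul, hd, one_smul, ← sub_eq_zero, ← map_sub, hw, hπ]
    show (aug O (ppow p e) (delta O (N := ppow p e) i - 1)) • π w = 0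
    rw [map_sub, hd, map_one, sub_self, zero_smul]
  have hsum : v = ∑ j, v j • (Pi.single j 1 : Fin D → Λ) := pi_eq_sum_univ' v
  have e1 : B v = ∑ j, v j • π (Pi.single j 1 : Fin D → Λ) := by
    conv_lhs => rw [hsum]
    rw [map_sum]
    refine Finset.sum_congr rfl fun j _ => ?_
    rw [map_smul_of_delta B hB]
    exact congrArg (v j • ·) (congrArg π (h.single j))
  have e2 : π v = B v := by
    rw [e1]
    conv_lhs => rw [hsum]
    rw [map_sum]
    exact Finset.sum_congr rfl fun j _ => hπ _ _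
  exact (congrFun e2 k).symm

/-- The matrix of an element at the augmentation. -/
theorem aug_act (h : NodeBasis N ρ' Ψ) (f : R) (i j : Fin D) :
    aug O (ppow p e) (ρ' f i j) =
      aug O (ppow p e) (N.ρ f (Pi.single j 1) i) := by
  rw [← h.single j, ← h.act, h.aug_apply, Matrix.mulVec_single_one]
  rfl

end NodeBasis

end Fermat.Agent.Lifting.Patching

end
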