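import Fermat.Agent.Lifting.Patching.Raise.Main
import Fermat.Agent.Lifting.Patching.Raise.Node
import Fermat.Agent.Lifting.Algebra.SiteGens
import Fermat.Agent.Lifting.Squarefree.SiteRep
import Fermat.Agent.RT.Assembly.Vanish
import Fermat.Agent.RT.Assembly.Final

/-!
# The input of the raising step, one depth at a time

At depth `n`: a ring `R` presented over the local coordinates, the levels and cokernels as free
`O[Δ]`-modules with equivariant degeneracy maps, and the point with values in `O`.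
-/

set_option autoImplicit false
set_option linter.unusedSectionVars false

noncomputable section

open IsLocalRing Fermat.Agent.RT.Patch Fermat.Agent.RT.LocalRing Fermat.Agent.RT.Diamond
  Fermat.Agent.Lifting.Algebra

namespace Fermat.Agent.Lifting.Patching

variable {O : Type} [CommRing O] [IsDomain O] [IsDiscreteValuationRing O]
  [IsAdicComplete (maximalIdeal O) O] [Finite (ResidueField O)] [CharZero O]
  {J : Type} [Finite J] {g m : ℕ}

/-- Elements vanishing at all points whose pairs have the property act by zero. -/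
def PairsKill {R : Type} [CommRing R] [Algebra O R] {M : Type} [AddCommGroup M] (act : R → M → M)
    (pair : J → Mat R × Mat R)
    (Pred : ∀ ⦃V : Type⦄ [CommRing V] [Algebra O V], (J → Mat V × Mat V) → Prop) : Prop :=
  ∀ x : R, (∀ (V : Type) [CommRing V] [IsDomain V] [IsDiscreteValuationRing V] [CharZero V]
      [IsAdicComplete (maximalIdeal V) V] [Algebra O V] [IsLocalHom (algebraMap O V)]
      [Module.Finite O V], Function.Injective (algebraMap O V) →
      ∀ f : R →ₐ[O] V, IsLocalHom (f : R →+* V) →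
        Pred (fun j => ((pair j).1.map f, (pair j).2.map f)) → f x = 0) →
    ∀ v, act x v = 0

namespace RaiseData

/-- The pairs at a point of the lowest level: unramified at the primes to be added, special at
the others. -/
def BasePred (Z : RaiseData O J g m) ⦃V : Type⦄ [CommRing V] [Algebra O V]
    (P : J → Mat V × Mat V) : Prop :=
  ∀ j, ((∃ k, Z.t k = j) → (Z.S j).IsType .unram (P j)) ∧
    ((∀ k, Z.t k ≠ j) → (Z.S j).IsType .same (P j) ∨ (Z.S j).IsType .opp (P j))

/-- The pairs at a point of the cokernel of a step: special at the prime added. -/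
def CokerPred (Z : RaiseData O J g m) (k : Fin m) ⦃V : Type⦄ [CommRing V] [Algebra O V]
    (P : J → Mat V × Mat V) : Prop :=
  (∀ j, (Z.S j).IsLocalPair (P j)) ∧
    ((Z.S (Z.t k)).IsType .same (P (Z.t k)) ∨ (Z.S (Z.t k)).IsType .opp (P (Z.t k)))

/-- Everything required at depth `n`. -/
structure RaiseInput (Z : RaiseData O J g m) (p r n : ℕ) [Fact p.Prime] : Type 1 where
  e : Fin r → ℕ
  le_e : ∀ i, n ≤ e i
  R : Type
  [instCommRing : CommRing R]
  [instIsLocalRing : IsLocalRing R]
  [instAlgebra : Algebra O R]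
  /-- the framing variables -/
  σ : Type
  [instFinite : Finite σ]
  eqv : Fin (numVars J g) ≃ Fin r ⊕ σ
  /-- the pairs at the sites -/
  pair : J → Mat R × Mat R
  /-- the presentation over the local coordinates -/
  Φ : PSR J (Fin g) O →ₐ[O] MvPowerSeries σ R
  Φ_surjective : Function.Surjective Φ
  Φ_pair : ∀ j, ∃ u : (Mat (MvPowerSeries σ R))ˣ,
    (univPair Z.S (Fin g) j).1.map Φ = cj u ((pair j).1.map MvPowerSeries.C) ∧
    (univPair Z.S (Fin g) j).2.map Φ = cj u ((pair j).2.map MvPowerSeries.C)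
  /-- the composites of the degeneracy maps in `R` -/
  rC : Fin m → Matrix (Fin 2) (Fin 2) R
  Φ_C : ∀ k i j, Φ (Z.C k i j) = MvPowerSeries.C (rC k i j)
  a : Fin r → R
  a_pow : ∀ i, a i ^ p ^ e i = 1
  /-- the character at which `a i` has no fixed vector -/
  χ : Fin r → (Alg O (ppow p e) →ₐ[O] O)
  ζ : O
  hζ : IsPrimitiveRoot ζ p
  χ_delta : ∀ i, χ i (delta O (N := ppow p e) i) = ζ
  /-- the levels -/
  level : ∀ k, DiamondNode R a χ (Z.DM k)
  /-- the cokernels -/
  coker : ∀ k, DiamondNode R a χ (Z.DC k)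
  up : ∀ k : Fin m, Fin 2 → (Fin (Z.DM k.castSucc) → Alg O (ppow p e)) →ₗ[O]
    (Fin (Z.DM k.succ) → Alg O (ppow p e))
  down : ∀ k : Fin m, Fin 2 → (Fin (Z.DM k.succ) → Alg O (ppow p e)) →ₗ[O]
    (Fin (Z.DM k.castSucc) → Alg O (ppow p e))
  quot : ∀ k : Fin m, (Fin (Z.DM k.succ) → Alg O (ppow p e)) →ₗ[O]
    (Fin (Z.DC k) → Alg O (ppow p e))
  up_comm : ∀ k j x v, up k j ((level k.castSucc).ρ x v) = (level k.succ).ρ x (up k j v)
  down_comm : ∀ k i x v, down k i ((level k.succ).ρ x v) = (level k.castSucc).ρ x (down k i v)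
  quot_comm : ∀ k x v, quot k ((level k.succ).ρ x v) = (coker k).ρ x (quot k v)
  quot_surjective : ∀ k, Function.Surjective (quot k)
  quot_exact : ∀ k v, quot k v = 0 → ∃ w : Fin 2 → Fin (Z.DM k.castSucc) → Alg O (ppow p e),
    v = ∑ j, up k j (w j)
  down_up : ∀ k i j v, down k i (up k j v) = (level k.castSucc).ρ (rC k i j) v
  /-- the degeneracy maps down are surjective up to an element outside the prime of the step -/
  down_surjective : ∀ k, ∃ x : PSR J (Fin g) O, (∃ o, Solves o n x) ∧
    ∀ (d : σ →₀ ℕ) (w : Fin 2 → Fin (Z.DM k.castSucc) → Alg O (ppow p e)), ∃ v, ∀ i,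
      down k i v = (level k.castSucc).ρ (MvPowerSeries.coeff d (Φ x)) (w i)
  kill_base : PairsKill (O := O) (fun x v => (level 0).ρ x v) pair Z.BasePred
  kill_coker : ∀ k, PairsKill (O := O) (fun x v => (coker k).ρ x v) pair (Z.CokerPred k)
  /-- the point -/
  pt : R →ₐ[O] O
  pt_a : ∀ i, pt (a i) = 1
  pt_same : ∀ j, (Z.S j).IsType .same ((pair j).1.map pt, (pair j).2.map pt)
  /-- the operators at the top -/
  op : Z.L → R
  pt_op : ∀ l, pt (op l) = Z.a l
  op_aug : ∀ l i j, Ideal.Quotient.mk (maximalIdeal O ^ n)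
    (aug O (ppow p e) ((level (Fin.last m)).ρ (op l) (Pi.single j 1) i)) =
      Ideal.Quotient.mk (maximalIdeal O ^ n) (Z.T₀ l i j)

attribute [instance] RaiseInput.instCommRing RaiseInput.instIsLocalRing RaiseInput.instAlgebra
  RaiseInput.instFinite

end RaiseData

open RaiseData

section Points

variable {R : Type} [CommRing R] [IsLocalRing R] [Algebra O R] {σ : Type} [Finite σ]
  {S : J → Site O}

/-- An element of a kernel vanishes coefficientwise at every point of that type. -/
theorem map_coeff_eq_zero (Φ : PSR J (Fin g) O →ₐ[O] MvPowerSeries σ R)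
    (hΦ : Function.Surjective Φ) {pair : J → Mat R × Mat R}
    (hpair : ∀ j, ∃ u : (Mat (MvPowerSeries σ R))ˣ,
      (univPair S (Fin g) j).1.map Φ = cj u ((pair j).1.map MvPowerSeries.C) ∧
      (univPair S (Fin g) j).2.map Φ = cj u ((pair j).2.map MvPowerSeries.C))
    {V : Type} [CommRing V] [IsDomain V] [IsDiscreteValuationRing V] [CharZero V]
    [IsAdicComplete (maximalIdeal V) V] [Algebra O V] (φ : R →ₐ[O] V)
    [IsLocalHom (φ : R →+* V)] (f : PSR J (Fin g) O)
    (hf : ∀ F : PSR J (Fin g) O →ₐ[O] V, (∀ i, F (MvPowerSeries.X i) ∈ maximalIdeal V) →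
      (∀ j, ∃ w : (Mat V)ˣ, (familyOf S (F ∘ MvPowerSeries.X)).1 j =
        (cj w ((pair j).1.map φ), cj w ((pair j).2.map φ))) → F f = 0)
    (d : σ →₀ ℕ) : φ (MvPowerSeries.coeff d (Φ f)) = 0 := by
  have h0 : MvPowerSeries.map (φ : R →+* V) (Φ f) = 0 := by
    refine RT.Assembly.eq_zero_of_forall_eval _ fun ev hev => ?_
    let π : MvPowerSeries σ R →+* V := ev.toRingHom.comp (MvPowerSeries.map (φ : R →+* V))
    have hπC : ∀ x : R, π (MvPowerSeries.C x) = φ x := fun x => by
      show ev (MvPowerSeries.map (φ : R →+* V) (MvPowerSeries.C x)) = _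
      rw [MvPowerSeries.map_C]
      exact ev.commutes _
    let F : PSR J (Fin g) O →ₐ[O] V :=
      { π.comp Φ.toRingHom with
        commutes' := fun c => by
          show π (Φ (algebraMap O _ c)) = _
          rw [Φ.commutes, IsScalarTower.algebraMap_apply O R (MvPowerSeries σ R),
            MvPowerSeries.algebraMap_apply, Algebra.algebraMap_self, RingHom.id_apply, hπC,
            φ.commutes] }
    refine hf F (fun i => ?_) fun j => ?_
    · have : IsLocalHom (Φ : PSR J (Fin g) O →+* MvPowerSeries σ R) :=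
        IsLocalHom.of_surjective _ hΦ
      have hy := map_nonunit (Φ : PSR J (Fin g) O →+* MvPowerSeries σ R) _ (X_mem_psr i)
      rw [RT.mem_maximalIdeal_mvPowerSeries] at hy
      refine RT.Assembly.eval_mem ev hev _ ?_
      rw [MvPowerSeries.constantCoeff_map]
      exact map_nonunit (φ : R →+* V) _ hy
    · obtain ⟨u, h1, h2⟩ := hpair j
      refine ⟨Units.map π.mapMatrix.toMonoidHom u, ?_⟩
      rw [← univPair_map]
      have hM : ∀ M : Mat R, (M.map MvPowerSeries.C).map π = M.map φ := fun M => by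
        rw [Matrix.map_map]
        exact Matrix.ext fun a b => hπC _
      have hF : ∀ (A : Mat (PSR J (Fin g) O)) (M : Mat R), A.map Φ = cj u (M.map MvPowerSeries.C) →
          A.map F = cj (Units.map π.mapMatrix.toMonoidHom u) (M.map φ) := fun A M h => by
        rw [← hM M, ← map_cj, ← h, Matrix.map_map]
        rfl
      exact Prod.ext (hF _ _ h1) (hF _ _ h2)
  have := congrArg (MvPowerSeries.coeff d) h0
  rwa [MvPowerSeries.coeff_map, map_zero] at this

end Points

namespace RaiseData.RaiseInput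

variable {Z : RaiseData O J g m} {p r n : ℕ} [Fact p.Prime]

theorem kill_base_coeff (hZ : Z.Valid) (I : RaiseInput Z p r n)
    {f : PSR J (Fin g) O} (hf : f ∈ kernel Z.S (Fin g) (Z.comp 0)) (d : I.σ →₀ ℕ)
    (v : Fin (Z.DM 0) → Alg O (ppow p I.e)) :
    (I.level 0).ρ (MvPowerSeries.coeff d (I.Φ f)) v = 0 := by
  refine I.kill_base _ (fun V _ _ _ _ _ _ _ _ hinj φ hφ hP => ?_) v
  refine map_coeff_eq_zero I.Φ I.Φ_surjective I.Φ_pair φ f (fun F hF hconj => ?_) d
  refine kernel_le_ker_of_isType Z.S hZ.two hinj F hF (fun j => ?_) hf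
  obtain ⟨w, hw⟩ := hconj j
  rw [hw]
  obtain ⟨h1, h2⟩ := hP j
  dsimp only at h1 h2
  by_cases h : ∃ k, Z.t k = j
  · obtain ⟨k, hk⟩ := h
    rw [comp_eq_unram_iff.2 ⟨k, Nat.zero_le _, hk⟩]
    exact isType_cj (O := O) (B := V) (σ := Z.S j) (ty := .unram)
      (x := ((I.pair j).1.map φ, (I.pair j).2.map φ)) w (h1 ⟨k, hk⟩)
  · push Not at h
    rw [comp_eq_same_iff.2 fun ⟨i, _, hi⟩ => h i hi]
    rcases h2 h with hs | ho
    · exact isType_cj (O := O) (B := V) (σ := Z.S j) (ty := .same)
        (x := ((I.pair j).1.map φ, (I.pair j).2.map φ)) w hs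
    · refine absurd ?_ (hZ.opp_base j h)
      refine allowed_of_isType Z.S hZ.two hinj (F ∘ MvPowerSeries.X) hF j ?_
      rw [hw]
      exact isType_cj (O := O) (B := V) (σ := Z.S j) (ty := .opp)
        (x := ((I.pair j).1.map φ, (I.pair j).2.map φ)) w ho

theorem kill_coker_coeff (hZ : Z.Valid) (I : RaiseInput Z p r n) (k : Fin m)
    {f : PSR J (Fin g) O} (hf : f ∈ ∏ c ∈ Z.cokerTypes k, kernel Z.S (Fin g) c) (d : I.σ →₀ ℕ)
    (v : Fin (Z.DC k) → Alg O (ppow p I.e)) :
    (I.coker k).ρ (MvPowerSeries.coeff d (I.Φ f)) v = 0 := by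
  classical
  refine I.kill_coker k _ (fun V _ _ _ _ _ _ _ _ hinj φ hφ hP => ?_) v
  refine map_coeff_eq_zero I.Φ I.Φ_surjective I.Φ_pair φ f (fun F hF hconj => ?_) d
  obtain ⟨hloc, hspec⟩ := hP
  dsimp only at hloc hspec
  choose w hw using hconj
  have hex : ∀ j, ∃ ty, (Z.S j).Allowed ty ∧
      (Z.S j).IsType ty ((familyOf Z.S (F ∘ MvPowerSeries.X)).1 j) ∧
      (j = Z.t k → ty ≠ .unram) := by
    intro j
    by_cases hj : j = Z.t k
    · subst hj
      rcases hspec with h | h
      · have := isType_cj (w (Z.t k)) h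
        rw [← hw] at this
        exact ⟨.same, trivial, this, fun _ => by decide⟩
      · have := isType_cj (w (Z.t k)) h
        rw [← hw] at this
        exact ⟨.opp, allowed_of_isType Z.S hZ.two hinj _ hF _ this, this, fun _ => by decide⟩
    · have hl := isLocalPair_cj (w j) (hloc j)
      rw [← hw] at hl
      obtain ⟨ty, ha, ht⟩ := exists_type Z.S hZ.two hinj _ hF j hl
      exact ⟨ty, ha, ht, fun h => absurd h hj⟩
  choose c hca hct hck using hex
  have hmem : c ∈ Z.cokerTypes k := (Z.mem_cokerTypes).2 ⟨hca, hck _ rfl⟩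
  exact kernel_le_ker_of_isType Z.S hZ.two hinj F hF hct
    (Ideal.le_of_dvd (Finset.dvd_prod_of_mem _ hmem) hf)

/-- The point as a homomorphism on the presentation. -/
def ptHom (I : RaiseInput Z p r n) : PSR J (Fin g) O →ₐ[O] O :=
  { (I.pt.toRingHom.comp MvPowerSeries.constantCoeff).comp I.Φ.toRingHom with
    commutes' := fun c => by
      show I.pt (MvPowerSeries.constantCoeff (I.Φ (algebraMap O _ c))) = _
      rw [I.Φ.commutes, IsScalarTower.algebraMap_apply O I.R (MvPowerSeries I.σ I.R),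
        MvPowerSeries.algebraMap_apply, Algebra.algebraMap_self, RingHom.id_apply,
        MvPowerSeries.constantCoeff_C, I.pt.commutes] }

theorem ptHom_apply (I : RaiseInput Z p r n) (f : PSR J (Fin g) O) :
    I.ptHom f = I.pt (MvPowerSeries.constantCoeff (I.Φ f)) := rfl

theorem ptHom_eq_zero (hZ : Z.Valid) (I : RaiseInput Z p r n)
    {f : PSR J (Fin g) O} (hf : f ∈ kernel Z.S (Fin g) (Z.comp m)) : I.ptHom f = 0 := by
  have : IsLocalHom (I.pt : I.R →+* O) :=
    IsLocalHom.of_surjective _ fun x => ⟨algebraMap O I.R x, I.pt.commutes x⟩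
  have : IsLocalHom (algebraMap O O) := by
    rw [Algebra.algebraMap_self]
    exact ⟨fun _ h => h⟩
  have : IsLocalHom (I.Φ : PSR J (Fin g) O →+* MvPowerSeries I.σ I.R) :=
    IsLocalHom.of_surjective _ I.Φ_surjective
  refine kernel_le_ker_of_isType Z.S hZ.two (V := O) Function.injective_id I.ptHom (fun i => ?_)
    (fun j => ?_) hf
  · have hy := map_nonunit (I.Φ : PSR J (Fin g) O →+* MvPowerSeries I.σ I.R) _ (X_mem_psr i)
    rw [RT.mem_maximalIdeal_mvPowerSeries] at hy
    rw [ptHom_apply]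
    exact map_nonunit (I.pt : I.R →+* O) _ hy
  · rw [comp_eq_same_iff.2 fun ⟨i, hi, _⟩ => absurd i.2 (not_lt.2 hi), ← univPair_map]
    obtain ⟨u, h1, h2⟩ := I.Φ_pair j
    let π : MvPowerSeries I.σ I.R →+* O := I.pt.toRingHom.comp MvPowerSeries.constantCoeff
    have hF : ∀ (A : Mat (PSR J (Fin g) O)) (M : Mat I.R),
        A.map I.Φ = cj u (M.map MvPowerSeries.C) →
        A.map I.ptHom = cj (Units.map π.mapMatrix.toMonoidHom u) (M.map I.pt) := fun A M h => by
      have hM : (M.map MvPowerSeries.C).map π = M.map I.pt := by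
        rw [Matrix.map_map]
        refine Matrix.ext fun a b => ?_
        simp [π]
      rw [← hM, ← map_cj, ← h, Matrix.map_map]
      rfl
    have := isType_cj (Units.map π.mapMatrix.toMonoidHom u) (I.pt_same j)
    rwa [← hF _ _ h1, ← hF _ _ h2] at this

end RaiseData.RaiseInput

end Fermat.Agent.Lifting.Patching

end
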