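import Fermat.Agent.Lifting.Patching.Raise.Input
import Mathlib.Algebra.Module.Projective

/-!
# The raising step from its input at every depth

In the bases of the diamond trick the input at depth `n` gives a system at level `n`.
-/

set_option autoImplicit false
set_option linter.unusedSectionVars false

noncomputable section

open IsLocalRing Fermat.Agent.RT.Patch Fermat.Agent.RT.LocalRing Fermat.Agent.RT.Diamond
  Fermat.Agent.Lifting.Algebra

namespace Fermat.Agent.Lifting.Patching

section Splitting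

variable {T : Type} [CommRing T] {D D' DC : ℕ}

/-- A surjection onto a free module with kernel in the image of given maps splits. -/
theorem exists_splitting (A : Fin 2 → Matrix (Fin D') (Fin D) T) (Q : Matrix (Fin DC) (Fin D') T)
    (hsurj : ∀ y, ∃ v, Q.mulVec v = y)
    (hexact : ∀ v, Q.mulVec v = 0 → ∃ w : Fin 2 → Fin D → T, v = ∑ j, (A j).mulVec (w j)) :
    ∃ (Y : Matrix (Fin D') (Fin DC) T) (L : Fin 2 → Matrix (Fin D) (Fin D') T),
      ∑ j, A j * L j + Y * Q = 1 ∧ Q * Y = 1 := by
  classical
  let q : (Fin D' → T) →ₗ[T] (Fin DC → T) := Q.mulVecLin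
  let α : (Fin 2 → Fin D → T) →ₗ[T] (Fin D' → T) :=
    ∑ j, (A j).mulVecLin.comp (LinearMap.proj j)
  have hα : ∀ w, α w = ∑ j, (A j).mulVec (w j) := fun w => by
    simp [α]
  obtain ⟨y, hy⟩ := Module.projective_lifting_property q LinearMap.id
    (fun x => hsurj x)
  have hy' : ∀ x, Q.mulVec (y x) = x := fun x => LinearMap.congr_fun hy x
  let π : (Fin D' → T) →ₗ[T] LinearMap.range α :=
    LinearMap.codRestrict _ (LinearMap.id - y.comp q) fun v => by
      obtain ⟨w, hw⟩ := hexact (v - y (Q.mulVec v)) (by rw [Matrix.mulVec_sub, hy', sub_self])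
      exact ⟨w, (hα w).trans hw.symm⟩
  obtain ⟨l, hl⟩ := Module.projective_lifting_property α.rangeRestrict π
    α.surjective_rangeRestrict
  have hl' : ∀ v, ∑ j, (A j).mulVec (l v j) = v - y (Q.mulVec v) := fun v => by
    rw [← hα]
    exact congrArg Subtype.val (LinearMap.congr_fun hl v)
  have hY : ∀ x, (LinearMap.toMatrix' y).mulVec x = y x := fun x =>
    LinearMap.congr_fun (Matrix.toLin'_toMatrix' y) x
  have hL : ∀ j v, (LinearMap.toMatrix' ((LinearMap.proj j).comp l)).mulVec v = l v j := fun j v =>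
    LinearMap.congr_fun (Matrix.toLin'_toMatrix' ((LinearMap.proj j).comp l)) v
  refine ⟨LinearMap.toMatrix' y, fun j => LinearMap.toMatrix' ((LinearMap.proj j).comp l),
    Matrix.ext_of_mulVec_single fun c => ?_, Matrix.ext_of_mulVec_single fun c => ?_⟩
  · rw [Matrix.add_mulVec, Matrix.sum_mulVec, Matrix.one_mulVec]
    simp only [← Matrix.mulVec_mulVec, hL, hY, hl', sub_add_cancel]
  · rw [← Matrix.mulVec_mulVec, hY, hy', Matrix.one_mulVec]

end Splitting

variable {O : Type} [CommRing O] [IsDomain O] [IsDiscreteValuationRing O]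
  [IsAdicComplete (maximalIdeal O) O] [Finite (ResidueField O)] [CharZero O]
  {d r p n : ℕ} [Fact p.Prime] {e : Fin r → ℕ} {σ : Type} [Finite σ]
  (hpO : (p : O) ∈ maximalIdeal O) (eqv : Fin d ≃ Fin r ⊕ σ) (he : ∀ i, n ≤ e i)
  {P R : Type} [CommRing P] [Algebra O P] [CommRing R] [Algebra O R] {D D' : ℕ}
  (Φ : P →ₐ[O] MvPowerSeries σ R)

/-- Partial inverses pass to the level. -/
theorem exists_levelAction_witness
    (ρ : R →ₐ[O] Matrix (Fin D) (Fin D) (Alg O (ppow p e)))
    (A : Fin 2 → Matrix (Fin D) (Fin D') (Alg O (ppow p e))) (x : P) (j : Fin 2)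
    (h : ∀ m, ∃ B : Matrix (Fin D') (Fin D) (Alg O (ppow p e)), ∀ i, A i * B =
      if i = j then ρ (MvPowerSeries.coeff m (Φ x)) else 0) :
    ∃ W : Matrix (Fin D') (Fin D) (Lvl (MvPowerSeries (Fin d) O) n), ∀ i, (A i).map (diamondEval hpO eqv he) * W =
      if i = j then levelAction hpO eqv he Φ ρ x else 0 := by
  classical
  choose B hB using h
  let W₀ : Matrix (Fin D') (Fin D) (MvPowerSeries σ (Lvl (MvPowerSeries (Fin d) O) n)) :=
    Matrix.of fun a b => ((fun m => diamondEval hpO eqv he (B m a b)) :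
      MvPowerSeries σ (Lvl (MvPowerSeries (Fin d) O) n))
  have hW₀ : ∀ a b m, MvPowerSeries.coeff m (W₀ a b) = diamondEval hpO eqv he (B m a b) :=
    fun _ _ _ => rfl
  clear_value W₀
  refine ⟨W₀.map (evalVars n eqv), fun i => ?_⟩
  have key : (((A i).map (diamondEval hpO eqv he)).map (MvPowerSeries.C (σ := σ)) * W₀ :
      Matrix (Fin D) (Fin D) (MvPowerSeries σ (Lvl (MvPowerSeries (Fin d) O) n))) =
      if i = j then seriesHom ((diamondEval hpO eqv he).toRingHom.mapMatrix.comp ρ.toRingHom) (Φ x)
      else 0 := by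
    refine Matrix.ext fun a b => MvPowerSeries.ext fun m => ?_
    have h1 : MvPowerSeries.coeff m
        ((((A i).map (diamondEval hpO eqv he)).map (MvPowerSeries.C (σ := σ)) * W₀ :
          Matrix (Fin D) (Fin D) (MvPowerSeries σ (Lvl (MvPowerSeries (Fin d) O) n))) a b) =
        ((A i).map (diamondEval hpO eqv he) * (B m).map (diamondEval hpO eqv he)) a b := by
      simp only [Matrix.mul_apply, map_sum, Matrix.map_apply, MvPowerSeries.coeff_C_mul, hW₀]
    rw [h1, ← Matrix.map_mul, hB]
    split_ifs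
    · rfl
    · simp
  have hA : ((A i).map (diamondEval hpO eqv he)).map (⇑(evalVars n eqv) ∘ ⇑MvPowerSeries.C) =
      (A i).map (diamondEval hpO eqv he) :=
    Matrix.ext fun a b => (evalVars n eqv).commutes _
  have h2 := congrArg (fun M => M.map (evalVars n eqv)) key
  simp only [Matrix.map_mul] at h2
  rw [Matrix.map_map, hA] at h2
  rw [h2]
  split_ifs
  · rfl
  · exact Matrix.map_zero _ (map_zero _)

/-- The lifts of the variables at a node, with value zero at an augmentation. -/
theorem exists_levelAction_lift (hΦ : Function.Surjective Φ) (a : Fin r → R) (ε : R →ₐ[O] O)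
    (hε : ∀ i, ε (a i) = 1) (ρ : R →ₐ[O] Matrix (Fin D) (Fin D) (Alg O (ppow p e)))
    (ha : ∀ i, ρ (a i) = Matrix.scalar (Fin D) (delta O (N := ppow p e) i)) (j : Fin d) :
    ∃ f, levelAction hpO eqv he Φ ρ f = Matrix.scalar (Fin D) (yVar n j) ∧
      ε (MvPowerSeries.constantCoeff (Φ f)) = 0 := by
  obtain ⟨k, rfl⟩ := eqv.symm.surjective j
  rcases k with i | s
  · obtain ⟨f, hf⟩ := hΦ (MvPowerSeries.C (a i - 1))
    refine ⟨f, ?_, by rw [hf, MvPowerSeries.constantCoeff_C, map_sub, hε, map_one, sub_self]⟩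
    rw [levelAction_of_eq_C hpO eqv he Φ ρ hf, map_sub, map_one, ha]
    refine (congrArg (fun M => M.map (diamondEval hpO eqv he))
      (show Matrix.scalar (Fin D) (delta O (N := ppow p e) i) - 1 =
        Matrix.scalar (Fin D) (delta O (N := ppow p e) i - 1) by rw [map_sub, map_one])).trans ?_
    refine (scalar_map (diamondEval hpO eqv he).toRingHom _).trans (congrArg _ ?_)
    show diamondEval hpO eqv he (delta O (N := ppow p e) i - 1) = _
    rw [map_sub, map_one, diamondEval_delta, add_sub_cancel_left]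
  · obtain ⟨f, hf⟩ := hΦ (MvPowerSeries.X s)
    exact ⟨f, levelAction_of_eq_X hpO eqv he Φ ρ hf,
      by rw [hf, MvPowerSeries.constantCoeff_X, map_zero]⟩

namespace RaiseData

variable {J : Type} [Finite J] {g m : ℕ} {Z : RaiseData O J g m}

include hpO in
/-- The input at depth `n` gives a system at level `n`. -/
theorem exists_isRaiseLevel (hZ : Z.Valid) (I : RaiseInput Z p r n) :
    ∃ X : Z.Sys (Lvl (MvPowerSeries (Fin (numVars J g)) O) n), IsRaiseLevel n X := by
  classical
  choose ρL ΨL hL using fun k => exists_nodeBasis hpO I.a_pow I.hζ I.χ_delta (I.level k)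
  choose ρC ΨC hC using fun k => exists_nodeBasis hpO I.a_pow I.hζ I.χ_delta (I.coker k)
  choose MU hMU hMUc using fun (k : Fin m) (j : Fin 2) =>
    (hL k.castSucc).exists_matrix (hL k.succ) (I.up k j) (I.up_comm k j)
  choose MD hMD hMDc using fun (k : Fin m) (i : Fin 2) =>
    (hL k.succ).exists_matrix (hL k.castSucc) (I.down k i) (I.down_comm k i)
  choose MQ hMQ hMQc using fun k : Fin m =>
    (hL k.succ).exists_matrix (hC k) (I.quot k) (I.quot_comm k)
  choose Y L hsplit hQY using fun k : Fin m => exists_splitting (MU k) (MQ k)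
    (fun y => by
      obtain ⟨v, hv⟩ := I.quot_surjective k (ΨC k y)
      exact ⟨(ΨL k.succ).symm v, (ΨC k).injective
        (by rw [hMQ, LinearEquiv.apply_symm_apply, hv])⟩)
    (fun v hv => by
      obtain ⟨w, hw⟩ := I.quot_exact k (ΨL k.succ v) (by rw [← hMQ, hv, map_zero])
      refine ⟨fun j => (ΨL k.castSucc).symm (w j), (ΨL k.succ).injective ?_⟩
      rw [map_sum, hw]
      exact Finset.sum_congr rfl fun j _ => by rw [hMU, LinearEquiv.apply_symm_apply])
  choose x hxs hx using I.down_surjective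
  have hB : ∀ (k : Fin m) (j : Fin 2) (c : I.σ →₀ ℕ),
      ∃ B : Matrix (Fin (Z.DM k.succ)) (Fin (Z.DM k.castSucc)) (Alg O (ppow p I.e)),
        ∀ i, MD k i * B =
      if i = j then ρL k.castSucc (MvPowerSeries.coeff c (I.Φ (x k))) else 0 := by
    intro k j c
    choose v hv using fun b : Fin (Z.DM k.castSucc) =>
      hx k c (Pi.single j (ΨL k.castSucc (Pi.single b 1)))
    refine ⟨Matrix.of fun a b => (ΨL k.succ).symm (v b) a,
      fun i => Matrix.ext_of_mulVec_single fun b => (ΨL k.castSucc).injective ?_⟩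
    rw [← Matrix.mulVec_mulVec, hMD]
    have hcol : (Matrix.of fun a b => (ΨL k.succ).symm (v b) a).mulVec (Pi.single b 1) =
        (ΨL k.succ).symm (v b) := by
      rw [Matrix.mulVec_single_one]
      rfl
    rw [hcol, LinearEquiv.apply_symm_apply, hv]
    split_ifs with h
    · subst h
      rw [Pi.single_eq_same, (hL _).act]
    · rw [Pi.single_eq_of_ne h, map_zero, Matrix.zero_mulVec, map_zero]
  choose W hW using fun k j =>
    exists_levelAction_witness hpO I.eqv I.le_e I.Φ (ρL k.castSucc) (MD k) (x k) j (hB k j)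
  let de := diamondEval (O := O) (n := n) hpO I.eqv I.le_e
  let actL := fun k => levelAction hpO I.eqv I.le_e I.Φ (ρL k)
  let actC := fun k => levelAction hpO I.eqv I.le_e I.Φ (ρC k)
  let actP : PSR J (Fin g) O →+* Matrix (Fin 1) (Fin 1) (Lvl (MvPowerSeries (Fin (numVars J g)) O) n) :=
    (Matrix.scalar (Fin 1)).comp ((Ideal.Quotient.mk _).comp
      (MvPowerSeries.C.comp I.ptHom.toRingHom))
  let X : Z.Sys (Lvl (MvPowerSeries (Fin (numVars J g)) O) n) :=
    { act := fun v => match v with
        | .lev k => actL k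
        | .coker k => actC k
        | .point => actP
      edge := fun q => match q with
        | (k, .up j) => (MU k j).map de
        | (k, .down i) => (MD k i).map de
        | (k, .quot) => (MQ k).map de
        | (k, .sec) => (Y k).map de
        | (k, .split j) => (L k j).map de
        | (k, .witness j) => W k j }
  have hPt : ∀ f, pt X f = Matrix.scalar (Fin 1)
      (Ideal.Quotient.mk _ (MvPowerSeries.C (I.ptHom f))) := fun f => rfl
  refine ⟨X, {
    up_comm := fun k j f => levelAction_intertwine hpO I.eqv I.le_e I.Φ I.Φ _ _ (MU k j) f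
      fun _ => hMUc k j _
    down_comm := fun k i f => levelAction_intertwine hpO I.eqv I.le_e I.Φ I.Φ _ _ (MD k i) f
      fun _ => hMDc k i _
    quot_comm := fun k f => levelAction_intertwine hpO I.eqv I.le_e I.Φ I.Φ _ _ (MQ k) f
      fun _ => hMQc k _
    split_eq := fun k => ?_
    sec_eq := fun k => ?_
    comp_eq := fun k i j => ?_
    scalar := fun v c => ?_
    lift_lev := fun k i => ?_
    lift_cok := fun k i => ?_
    kill_base := fun f hf => ?_
    kill_cok := fun k f hf => ?_
    kill_pt := fun f hf => ?_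
    transfer := fun k => ⟨x k, hxs k, fun i j => hW k j i⟩
    operator := fun l => ?_ }⟩
  · have h := congrArg de.toRingHom.mapMatrix (hsplit k)
    simp only [map_add, map_one, RingHom.mapMatrix_apply, Fin.sum_univ_two, Matrix.map_mul] at h
    rw [Fin.sum_univ_two]
    exact h
  · exact (Matrix.map_mul ..).symm.trans ((congrArg (fun M => M.map de) (hQY k)).trans
      (Matrix.map_one _ (map_zero _) (map_one _)))
  · refine (Matrix.map_mul ..).symm.trans ?_
    have h : MD k i * MU k j = ρL k.castSucc (I.rC k i j) := by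
      refine Matrix.ext_of_mulVec_single fun b => (ΨL k.castSucc).injective ?_
      rw [← Matrix.mulVec_mulVec, hMD, hMU, (hL _).act, I.down_up]
    rw [h]
    exact (levelAction_of_eq_C hpO I.eqv I.le_e I.Φ _ (I.Φ_C k i j)).symm
  · cases v with
    | lev k => exact levelAction_algebraMap hpO I.eqv I.le_e I.Φ _ c
    | coker k => exact levelAction_algebraMap hpO I.eqv I.le_e I.Φ _ c
    | point =>
      show actP _ = _
      simp only [actP, RingHom.comp_apply, AlgHom.toRingHom_eq_coe, RingHom.coe_coe,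
        AlgHom.commutes, Algebra.algebraMap_self, RingHom.id_apply]
      rfl
  · obtain ⟨f, hf, hf0⟩ := exists_levelAction_lift hpO I.eqv I.le_e I.Φ I.Φ_surjective I.a I.pt
      I.pt_a (ρL k) (hL k).diamond i
    exact ⟨f, hf, by rw [hPt, RaiseInput.ptHom_apply, hf0, map_zero, map_zero, map_zero]⟩
  · obtain ⟨f, hf, hf0⟩ := exists_levelAction_lift hpO I.eqv I.le_e I.Φ I.Φ_surjective I.a I.pt
      I.pt_a (ρC k) (hC k).diamond i
    exact ⟨f, hf, by rw [hPt, RaiseInput.ptHom_apply, hf0, map_zero, map_zero, map_zero]⟩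
  · refine (isNode_levelAction hpO I.eqv I.le_e I.Φ (ρL 0) I.Φ_surjective I.a (hL 0).diamond
      (Ideal.span {f}) fun f' hf' c => ?_).kills f (Ideal.mem_span_singleton_self f)
    refine Matrix.ext_of_mulVec_single fun b => (ΨL 0).injective ?_
    rw [(hL 0).act, Matrix.zero_mulVec, map_zero]
    exact I.kill_base_coeff hZ ((Ideal.span_singleton_le_iff_mem _).2 hf hf') c _
  · refine (isNode_levelAction hpO I.eqv I.le_e I.Φ (ρC k) I.Φ_surjective I.a (hC k).diamond
      (Ideal.span {f}) fun f' hf' c => ?_).kills f (Ideal.mem_span_singleton_self f)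
    refine Matrix.ext_of_mulVec_single fun b => (ΨC k).injective ?_
    rw [(hC k).act, Matrix.zero_mulVec, map_zero]
    exact I.kill_coker_coeff hZ k ((Ideal.span_singleton_le_iff_mem _).2 hf hf') c _
  · rw [hPt, I.ptHom_eq_zero hZ hf, map_zero, map_zero, map_zero]
  · obtain ⟨f, hf⟩ := I.Φ_surjective (MvPowerSeries.C (I.op l))
    refine ⟨f, ?_, by rw [hPt, RaiseInput.ptHom_apply, hf, MvPowerSeries.constantCoeff_C, I.pt_op]⟩
    refine (levelAction_aug hpO I.eqv I.le_e I.Φ (ρL _) f).trans ?_
    rw [hf, MvPowerSeries.constantCoeff_C]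
    refine Matrix.ext fun i j => ?_
    rw [Matrix.map_apply, Matrix.map_apply, RingHom.comp_apply]
    exact (congrArg (Ideal.Quotient.mk _) ((hL _).aug_act (I.op l) i j)).trans (I.op_aug l i j)

include hpO in
/-- **The raising step from its inputs**: the operators at the top have a common eigenvector
with the values of the point. -/
theorem exists_eigenvector_of_inputs (hZ : Z.Valid) (h : ∀ n, Nonempty (RaiseInput Z p r n)) :
    ∃ w : Fin (Z.DM (Fin.last m)) → O, w ≠ 0 ∧ ∀ l, (Z.T₀ l).mulVec w = Z.a l • w :=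
  exists_eigenvector hZ fun n => let ⟨I⟩ := h n; exists_isRaiseLevel hpO hZ I

end RaiseData

end Fermat.Agent.Lifting.Patching

end
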