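import Fermat.Agent.Lifting.Patching.Raise.Defs
import Fermat.Agent.Lifting.Patching.Compact

/-!
# The limit of the systems of the raising step
-/

set_option autoImplicit false
set_option linter.unusedSectionVars false

noncomputable section

open IsLocalRing Fermat.Agent.RT.Patch Fermat.Agent.RT.LocalRing Fermat.Agent.Lifting.Algebra

namespace Fermat.Agent.Lifting.Patching.RaiseData

variable {O : Type} [CommRing O] [IsLocalRing O] [IsNoetherianRing O]
  [IsAdicComplete (maximalIdeal O) O] [Finite (ResidueField O)] {J : Type} [Finite J] {g m : ℕ}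
  {Z : RaiseData O J g m}

local notation "𝕊" => MvPowerSeries (Fin (numVars J g)) O
local notation "ℙ" => PSR J (Fin g) O

theorem eraseVar_pow_mem (s : Fin g) {x : ℙ} {n : ℕ} (hx : x ∈ maximalIdeal ℙ ^ n) :
    eraseVar s x ∈ maximalIdeal ℙ ^ n := by
  have h := Ideal.mem_map_of_mem (eraseVar (O := O) (J := J) s) hx
  rw [Ideal.map_pow] at h
  refine Ideal.pow_right_mono (Ideal.map_le_iff_le_comap.2 fun y hy => ?_) n h
  refine map_mem_maximalIdeal (eraseVar s) (fun i => ?_) hy
  rcases eq_or_ne i (Sum.inr s) with rfl | hi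
  · rw [eraseVar_X_self]; exact zero_mem _
  · rw [eraseVar_X_of_ne s hi]; exact X_mem_psr _

theorem Solves.mono {o : Option (Fin g)} {n : ℕ} {e : ℙ} (h : Solves o (n + 1) e) :
    Solves o n e := by
  cases o <;> exact Ideal.pow_le_pow_right (Nat.le_succ n) h

theorem Solves.of_sub_mem {o : Option (Fin g)} {n : ℕ} {e e' : ℙ} (h : Solves o n e)
    (he : e - e' ∈ maximalIdeal ℙ ^ n) : Solves o n e' := by
  cases o with
  | none =>
    show e' - 1 ∈ _
    rw [show e' - 1 = (e - 1) - (e - e') by ring]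
    exact sub_mem h he
  | some s =>
    show eraseVar s (e' - _) - (e' - _) ∈ _
    rw [show eraseVar s (e' - MvPowerSeries.X (Sum.inr s)) - (e' - MvPowerSeries.X (Sum.inr s)) =
      (eraseVar s (e - MvPowerSeries.X (Sum.inr s)) - (e - MvPowerSeries.X (Sum.inr s))) -
        (eraseVar s (e - e') - (e - e')) by simp only [map_sub]; ring]
    exact sub_mem h (sub_mem (eraseVar_pow_mem s he) he)

theorem IsRaiseLevel.reduce {n : ℕ} {X : Z.Sys (Lvl 𝕊 (n + 1))} (h : IsRaiseLevel (n + 1) X) :
    IsRaiseLevel n (X.map (redLvl 𝕊 (Nat.le_succ n))) where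
  toEqns := h.toEqns.map _
  scalar v c := by
    rw [Data.map_act, h.scalar, scalar_map, redLvl_mk]
  lift_lev k i := by
    obtain ⟨f, hf, hf0⟩ := h.lift_lev k i
    exact ⟨f, by rw [lev_map, hf, scalar_map, redLvl_mk],
      by rw [pt_map, hf0, Matrix.map_zero _ (map_zero _)]⟩
  lift_cok k i := by
    obtain ⟨f, hf, hf0⟩ := h.lift_cok k i
    exact ⟨f, by rw [cok_map, hf, scalar_map, redLvl_mk],
      by rw [pt_map, hf0, Matrix.map_zero _ (map_zero _)]⟩
  kill_base f hf := by rw [lev_map, h.kill_base f hf, Matrix.map_zero _ (map_zero _)]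
  kill_cok k f hf := by rw [cok_map, h.kill_cok k f hf, Matrix.map_zero _ (map_zero _)]
  kill_pt f hf := by rw [pt_map, h.kill_pt f hf, Matrix.map_zero _ (map_zero _)]
  transfer k := by
    obtain ⟨e, ⟨o, ho⟩, hw⟩ := h.transfer k
    exact ⟨e, ⟨o, ho.mono⟩, hw.map _⟩
  operator l := by
    obtain ⟨f, hf, hf0⟩ := h.operator l
    refine ⟨f, ?_, by rw [pt_map, hf0, scalar_map, redLvl_mk]⟩
    have := congrArg (fun M => M.map (redLvl O (Nat.le_succ n))) hf
    simp only [Matrix.map_map] at this
    refine Matrix.ext fun i j => ?_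
    have h2 := congrFun (congrFun this i) j
    simp only [lev_map, Matrix.map_apply, Function.comp_apply, redLvl_mk, ← augLvl_redLvl] at h2 ⊢
    exact h2

/-- What the systems at all levels give over `O⟦X⟧`. -/
structure IsLimit (X : Z.Sys 𝕊) : Prop extends Eqns X where
  scalar : ∀ v c, X.act v (algebraMap O _ c) = Matrix.scalar _ (MvPowerSeries.C c)
  lift_lev : ∀ k i, ∃ f, lev X k f = Matrix.scalar _ (MvPowerSeries.X i) ∧ pt X f = 0
  lift_cok : ∀ k i, ∃ f, cok X k f = Matrix.scalar _ (MvPowerSeries.X i) ∧ pt X f = 0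
  kill_base : ∀ f ∈ kernel Z.S (Fin g) (Z.comp 0), lev X 0 f = 0
  kill_cok : ∀ k, ∀ f ∈ ∏ c ∈ Z.cokerTypes k, kernel Z.S (Fin g) c, cok X k f = 0
  kill_pt : ∀ f ∈ kernel Z.S (Fin g) (Z.comp m), pt X f = 0
  transfer : ∀ k, ∃ e : ℙ, (e = 1 ∨ ∃ s, eraseVar s (e - MvPowerSeries.X (Sum.inr s)) =
      e - MvPowerSeries.X (Sum.inr s)) ∧ HasWitness X k e
  operator : ∀ l, ∃ f, (lev X (Fin.last m) f).map MvPowerSeries.constantCoeff = Z.T₀ l ∧
    pt X f = Matrix.scalar _ (MvPowerSeries.C (Z.a l))

theorem exists_isLimit (hlev : ∀ n, ∃ X : Z.Sys (Lvl 𝕊 n), IsRaiseLevel n X) :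
    ∃ X : Z.Sys 𝕊, IsLimit X := by
  have := mvPowerSeries_isAdicComplete (O := O) (σ := Fin (numVars J g))
  have := mvPowerSeries_isAdicComplete (O := O) (σ := Idx J (Fin g))
  have := finite_residueField_psr (O := O) (σ := Idx J (Fin g))
  obtain ⟨X, hX⟩ := exists_limit (S := 𝕊) (fun n => {X : Z.Sys (Lvl 𝕊 n) | IsRaiseLevel n X})
    hlev fun n X hX => IsRaiseLevel.reduce hX
  replace hX : ∀ n, IsRaiseLevel n (X.map (Ideal.Quotient.mk (maximalIdeal 𝕊 ^ n))) := hX
  -- conditions on an element, at all levels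
  have key : ∀ (Q : ℕ → ℙ → Prop), (∀ n x, Q (n + 1) x → Q n x) → (∀ n, ∃ x, Q n x) →
      (∀ n, ∃ N, ∀ x, Q n x → ∀ y, x - y ∈ maximalIdeal ℙ ^ N → Q n y) → ∃ x, ∀ n, Q n x :=
    fun Q hm hne hop => exists_mem_of_forall (fun n => {x | Q n x}) hm hne hop
  have hmono : ∀ (n : ℕ) {r r' : Type} (M : Matrix r r' 𝕊),
      M.map (Ideal.Quotient.mk (maximalIdeal 𝕊 ^ n)) =
        (M.map (Ideal.Quotient.mk (maximalIdeal 𝕊 ^ (n + 1)))).map
          (redLvl 𝕊 (Nat.le_succ n)) := fun n _ _ M => by
    rw [Matrix.map_map]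
    refine Matrix.ext fun i j => ?_
    simp only [Matrix.map_apply, Function.comp_apply, redLvl_mk]
  have hpow : ∀ v n, ∃ N, ∀ x y : ℙ, x - y ∈ maximalIdeal ℙ ^ N →
      (X.act v x).map (Ideal.Quotient.mk (maximalIdeal 𝕊 ^ n)) =
        (X.act v y).map (Ideal.Quotient.mk (maximalIdeal 𝕊 ^ n)) := fun v n =>
    exists_pow_le_ker ((Ideal.Quotient.mk (maximalIdeal 𝕊 ^ n)).mapMatrix.comp (X.act v))
  -- two conditions: a value at a node and a value at the point
  have key2 : ∀ (v : Node m) (A : Matrix _ _ 𝕊) (b : Matrix (Fin 1) (Fin 1) 𝕊),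
      (∀ n, ∃ f, (X.act v f).map (Ideal.Quotient.mk (maximalIdeal 𝕊 ^ n)) =
          A.map (Ideal.Quotient.mk _) ∧
        (pt X f).map (Ideal.Quotient.mk (maximalIdeal 𝕊 ^ n)) = b.map (Ideal.Quotient.mk _)) →
      ∃ f, X.act v f = A ∧ pt X f = b := by
    intro v A b h
    refine (key _ (fun n x hx => ?_) h (fun n => ?_)).elim fun f hf => ?_
    rotate_left 2
    · exact ⟨f, eq_of_forall_map fun n => (hf n).1, eq_of_forall_map fun n => (hf n).2⟩
    · constructor
      · rw [hmono n (X.act v x), hx.1, ← hmono]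
      · rw [hmono n (pt X x), hx.2, ← hmono]
    · obtain ⟨N₁, h₁⟩ := hpow v n
      obtain ⟨N₂, h₂⟩ := hpow .point n
      refine ⟨max N₁ N₂, fun x hx y hy => ⟨?_, ?_⟩⟩
      · rw [← h₁ x y (Ideal.pow_le_pow_right (le_max_left _ _) hy), hx.1]
      · exact (h₂ x y (Ideal.pow_le_pow_right (le_max_right _ _) hy)).symm.trans hx.2
  refine ⟨X,
    { up_comm := fun k j x => eq_of_forall_map fun n => by
        rw [Matrix.map_mul, Matrix.map_mul]; exact (hX n).up_comm k j x
      down_comm := fun k i x => eq_of_forall_map fun n => by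
        rw [Matrix.map_mul, Matrix.map_mul]; exact (hX n).down_comm k i x
      quot_comm := fun k x => eq_of_forall_map fun n => by
        rw [Matrix.map_mul, Matrix.map_mul]; exact (hX n).quot_comm k x
      split_eq := fun k => eq_of_forall_map fun n => ?_
      sec_eq := fun k => eq_of_forall_map fun n => by
        rw [Matrix.map_mul, Matrix.map_one _ (map_zero _) (map_one _)]; exact (hX n).sec_eq k
      comp_eq := fun k i j => eq_of_forall_map fun n => by
        rw [Matrix.map_mul]; exact (hX n).comp_eq k i j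
      scalar := fun v c => eq_of_forall_map fun n => by
        rw [scalar_map]; exact (hX n).scalar v c
      lift_lev := fun k i => key2 (.lev k) _ 0 fun n => ?_
      lift_cok := fun k i => key2 (.coker k) _ 0 fun n => ?_
      kill_base := fun f hf => eq_of_forall_map fun n => by
        rw [Matrix.map_zero _ (map_zero _)]; exact (hX n).kill_base f hf
      kill_cok := fun k f hf => eq_of_forall_map fun n => by
        rw [Matrix.map_zero _ (map_zero _)]; exact (hX n).kill_cok k f hf
      kill_pt := fun f hf => eq_of_forall_map fun n => by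
        rw [Matrix.map_zero _ (map_zero _)]; exact (hX n).kill_pt f hf
      transfer := fun k => ?_
      operator := fun l => ?_ }⟩
  · have h := (hX n).split_eq k
    simp only [Fin.sum_univ_two, up_map, split_map, sec_map, quot_map] at h
    simp only [Fin.sum_univ_two, Matrix.map_one _ (map_zero _) (map_one _),
      Matrix.map_add _ (map_add _), Matrix.map_mul]
    exact h
  · obtain ⟨f, hf, hf0⟩ := (hX n).lift_lev k i
    exact ⟨f, hf.trans (scalar_map _ _).symm,
      hf0.trans (Matrix.map_zero _ (map_zero _)).symm⟩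
  · obtain ⟨f, hf, hf0⟩ := (hX n).lift_cok k i
    exact ⟨f, hf.trans (scalar_map _ _).symm,
      hf0.trans (Matrix.map_zero _ (map_zero _)).symm⟩
  · refine (key
      (fun n e => (∃ o, Solves o n e) ∧
        HasWitness (X.map (Ideal.Quotient.mk (maximalIdeal 𝕊 ^ n))) k e)
      (fun n x hx => ⟨hx.1.imp fun _ => Solves.mono, ?_⟩) (fun n => (hX n).transfer k)
      fun n => ?_).elim fun e he => ?_
    rotate_left 2
    · obtain ⟨o, ho⟩ := exists_forall_of_forall_exists (fun o n => Solves o n e)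
        (fun _ _ h => h.mono) fun n => (he n).1
      refine ⟨e, ?_, fun i j => eq_of_forall_map fun n => ?_⟩
      · cases o with
        | none => exact Or.inl (eq_of_forall_mk fun n => Ideal.Quotient.eq.2 (ho n))
        | some s =>
          exact Or.inr ⟨s, eq_of_forall_mk fun n => Ideal.Quotient.eq.2 (ho n)⟩
      · rw [Matrix.map_mul]
        refine ((he n).2 i j).trans ?_
        split_ifs
        · rfl
        · exact (Matrix.map_zero _ (map_zero _)).symm
    · have h := hx.2.map (redLvl 𝕊 (Nat.le_succ n))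
      intro i j
      simp only [down_map, witness_map, lev_map, ← hmono] at h ⊢
      exact h i j
    · obtain ⟨N, hN⟩ := hpow (.lev k.castSucc) n
      refine ⟨max n N, fun x hx y hy => ⟨hx.1.imp fun _ ho => ho.of_sub_mem
        (Ideal.pow_le_pow_right (le_max_left _ _) hy), fun i j => (hx.2 i j).trans ?_⟩⟩
      have heq := hN x y (Ideal.pow_le_pow_right (le_max_right _ _) hy)
      split_ifs
      · exact heq
      · rfl
  · refine (key
      (fun n f => ((lev X (Fin.last m) f).map (Ideal.Quotient.mk (maximalIdeal 𝕊 ^ n))).map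
          (augLvl (numVars J g) n) = (Z.T₀ l).map (Ideal.Quotient.mk _) ∧
        (pt X f).map (Ideal.Quotient.mk (maximalIdeal 𝕊 ^ n)) =
          (Matrix.scalar (Fin 1) (MvPowerSeries.C (Z.a l) : 𝕊)).map (Ideal.Quotient.mk _))
      (fun n x hx => ⟨?_, ?_⟩)
      (fun n => by
        obtain ⟨f, hf, hf0⟩ := (hX n).operator l
        exact ⟨f, hf, hf0.trans (scalar_map _ _).symm⟩)
      fun n => ?_).elim fun f hf => ?_
    rotate_left 3
    · exact ⟨f, map_constantCoeff_eq fun n => (hf n).1, eq_of_forall_map fun n => (hf n).2⟩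
    · have h := congrArg (fun M => M.map (redLvl O (Nat.le_succ n))) hx.1
      simp only [Matrix.map_map] at h ⊢
      refine Matrix.ext fun i j => ?_
      have := congrFun (congrFun h i) j
      simp only [Matrix.map_apply, Function.comp_apply, ← augLvl_redLvl, redLvl_mk] at this ⊢
      exact this
    · rw [hmono n (pt X x), hx.2, ← hmono]
    · obtain ⟨N₁, h₁⟩ := hpow (.lev (Fin.last m)) n
      obtain ⟨N₂, h₂⟩ := hpow .point n
      refine ⟨max N₁ N₂, fun x hx y hy => ⟨?_, ?_⟩⟩
      · exact (congrArg (fun M => M.map (augLvl (numVars J g) n))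
          (h₁ x y (Ideal.pow_le_pow_right (le_max_left _ _) hy))).symm.trans hx.1
      · exact (h₂ x y (Ideal.pow_le_pow_right (le_max_right _ _) hy)).symm.trans hx.2

end Fermat.Agent.Lifting.Patching.RaiseData

end
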